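/-
Programme ORD, chapter CHAIN (helper5), file ClosedPred5: **abstract predicates on modules with an
action, closed under the operations used by the S32 chain**.

`Pr M act` is a predicate on an additive commutative group `M : Type` with a family of self-maps
`act : Γ → M → M` indexed by an arbitrary type `Γ` (for programme ORD: `Γ` = the decomposition group
`D_P`, acting through the restriction of the `G_ℚ`-action).  `ClosedPred Pr` says that `Pr` is closed
under

* `of_subsingleton` : trivial groups,
* `prod` : binary products (componentwise action),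
* `of_injective` : equivariant additive injections INTO a member,
* `of_surjective` : equivariant additive surjections FROM a member.

Derived: additive equivalences (`of_addEquiv`), finite powers (`pi`), and the "kernel form" of
subquotients (`of_ker_le`) which is what the chain uses.  `ClosedPred.of_sub_quot` builds a `ClosedPred`
from the subgroup / quotient / iso forms.  `HasFlatModel` restricted along any map `Γ → G_ℚ` is an
instance (`closedPred_hasFlatModel`), so the S32 chain is the special case `Pr = HasFlatModel`.

No requirement (additivity, multiplicativity) is put on the maps `act γ`: a predicate that needs them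
carries them inside `Pr` (they transfer along equivariant injections and surjections).
-/
import Mathlib
import Fermat.Agent.FF.S32.FlatChain5

set_option autoImplicit false

namespace Fermat.Agent.ORD.CHAIN.ClosedPred5

universe u

/-- closure properties of a predicate on additive groups with a `Γ`-indexed family of self-maps. -/
structure ClosedPred {Γ : Type u} (Pr : ∀ (M : Type) [AddCommGroup M], (Γ → M → M) → Prop) :
    Prop where
  /-- trivial groups. -/
  of_subsingleton : ∀ (M : Type) [AddCommGroup M] [Subsingleton M] (act : Γ → M → M), Pr M act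
  /-- binary products. -/
  prod : ∀ (M N : Type) [AddCommGroup M] [AddCommGroup N] (actM : Γ → M → M) (actN : Γ → N → N),
    Pr M actM → Pr N actN → Pr (M × N) (fun γ x => (actM γ x.1, actN γ x.2))
  /-- equivariant injections into a member. -/
  of_injective : ∀ (M N : Type) [AddCommGroup M] [AddCommGroup N] (actM : Γ → M → M)
    (actN : Γ → N → N) (f : M →+ N), Function.Injective f →
    (∀ γ x, f (actM γ x) = actN γ (f x)) → Pr N actN → Pr M actM
  /-- equivariant surjections from a member. -/
  of_surjective : ∀ (M N : Type) [AddCommGroup M] [AddCommGroup N] (actM : Γ → M → M)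
    (actN : Γ → N → N) (f : M →+ N), Function.Surjective f →
    (∀ γ x, f (actM γ x) = actN γ (f x)) → Pr M actM → Pr N actN

namespace ClosedPred

variable {Γ : Type u} {Pr : ∀ (M : Type) [AddCommGroup M], (Γ → M → M) → Prop}

/-- transport along an equivariant additive equivalence. -/
theorem of_addEquiv (h : ClosedPred Pr) {M N : Type} [AddCommGroup M] [AddCommGroup N]
    {actM : Γ → M → M} {actN : Γ → N → N} (e : M ≃+ N)
    (he : ∀ γ x, e (actM γ x) = actN γ (e x)) (hM : Pr M actM) : Pr N actN :=
  h.of_surjective M N actM actN e.toAddMonoidHom e.surjective he hM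

/-- the action only matters pointwise. -/
theorem congr_act (h : ClosedPred Pr) {M : Type} [AddCommGroup M] {act act' : Γ → M → M}
    (he : ∀ γ x, act γ x = act' γ x) (hM : Pr M act) : Pr M act' :=
  h.of_addEquiv (AddEquiv.refl M) he hM

/-- finite powers. -/
theorem pi (h : ClosedPred Pr) {Y : Type} [AddCommGroup Y] {act : Γ → Y → Y} (hY : Pr Y act)
    (n : ℕ) : Pr (Fin n → Y) (fun γ f i => act γ (f i)) := by
  induction n with
  | zero => exact h.of_subsingleton _ _
  | succ n ih =>
    have h1 := h.prod _ _ _ _ hY ih
    let φ : Y × (Fin n → Y) ≃+ (Fin (n + 1) → Y) :=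
      { toFun := fun x => Fin.cons x.1 x.2
        invFun := fun f => (f 0, Fin.tail f)
        left_inv := fun x => by simp
        right_inv := fun f => by simp
        map_add' := fun x y => by
          funext i
          refine Fin.cases ?_ (fun j => ?_) i
          · simp
          · simp }
    refine h.of_addEquiv φ ?_ h1
    intro γ x
    funext i
    refine Fin.cases ?_ (fun j => ?_) i
    · simp [φ]
    · simp [φ]

/-- **subquotients, kernel form**: if `Y` is a member, `f : X → Y` and `q : X → Z` are equivariant
additive maps, `q` surjective and `ker f ⊆ ker q`, then `Z` is a member. -/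
theorem of_ker_le (h : ClosedPred Pr) {Y : Type} [AddCommGroup Y] {actY : Γ → Y → Y}
    (hY : Pr Y actY)
    {X : Type} [AddCommGroup X] {actX : Γ → X → X} (f : X →+ Y)
    (hf : ∀ (γ : Γ) (x : X), f (actX γ x) = actY γ (f x))
    {Z : Type} [AddCommGroup Z] {actZ : Γ → Z → Z} (q : X →+ Z) (hq : Function.Surjective q)
    (hqact : ∀ (γ : Γ) (x : X), q (actX γ x) = actZ γ (q x))
    (hker : ∀ x : X, f x = 0 → q x = 0) : Pr Z actZ := by
  classical
  -- the image of `f` with the restricted action
  have hstab : ∀ (γ : Γ), ∀ y ∈ f.range, actY γ y ∈ f.range := by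
    rintro γ _ ⟨x, rfl⟩
    exact ⟨actX γ x, hf γ x⟩
  let act' : Γ → f.range → f.range := fun γ y => ⟨actY γ y.1, hstab γ y.1 y.2⟩
  have hrange : Pr f.range act' :=
    h.of_injective _ _ act' actY f.range.subtype Subtype.val_injective (fun γ m => rfl) hY
  -- the induced map `range f → Z`
  have hwd : ∀ x x' : X, f x = f x' → q x = q x' := by
    intro x x' hxx'
    have : f (x - x') = 0 := by rw [map_sub, hxx', sub_self]
    have := hker _ this
    rwa [map_sub, sub_eq_zero] at this
  let π : f.range →+ Z :=
    { toFun := fun y => q y.2.choose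
      map_zero' := by
        have : f (0 : f.range).2.choose = f 0 := by
          rw [(0 : f.range).2.choose_spec, map_zero]; rfl
        rw [hwd _ _ this, map_zero]
      map_add' := fun y y' => by
        have : f (y + y').2.choose = f (y.2.choose + y'.2.choose) := by
          rw [(y + y').2.choose_spec, map_add, y.2.choose_spec, y'.2.choose_spec]; rfl
        rw [hwd _ _ this, map_add] }
  have hπ : ∀ x : X, π ⟨f x, x, rfl⟩ = q x := by
    intro x
    exact hwd _ _ (⟨f x, x, rfl⟩ : f.range).2.choose_spec
  refine h.of_surjective _ _ act' actZ π ?_ ?_ hrange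
  · intro z
    obtain ⟨x, rfl⟩ := hq z
    exact ⟨⟨f x, x, rfl⟩, hπ x⟩
  · rintro γ ⟨_, x, rfl⟩
    have e : act' γ ⟨f x, x, rfl⟩ = ⟨f (actX γ x), actX γ x, rfl⟩ := Subtype.ext (hf γ x).symm
    rw [e, hπ, hπ, hqact]

/-- a `ClosedPred` from the subgroup / quotient / isomorphism forms of the closure properties. -/
theorem of_sub_quot
    (h0 : ∀ (M : Type) [AddCommGroup M] [Subsingleton M] (act : Γ → M → M), Pr M act)
    (hprod : ∀ (M N : Type) [AddCommGroup M] [AddCommGroup N] (actM : Γ → M → M)
      (actN : Γ → N → N), Pr M actM → Pr N actN → Pr (M × N) (fun γ x => (actM γ x.1, actN γ x.2)))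
    (hiso : ∀ (M N : Type) [AddCommGroup M] [AddCommGroup N] (actM : Γ → M → M)
      (actN : Γ → N → N) (e : M ≃+ N), (∀ γ x, e (actM γ x) = actN γ (e x)) → Pr M actM → Pr N actN)
    (hsub : ∀ (M : Type) [AddCommGroup M] (act : Γ → M → M) (X : AddSubgroup M)
      (hX : ∀ γ, ∀ x ∈ X, act γ x ∈ X), Pr M act → Pr X (fun γ x => ⟨act γ x.1, hX γ x.1 x.2⟩))
    (hquot : ∀ (M : Type) [AddCommGroup M] (act : Γ → M → M) (X : AddSubgroup M)
      (actQ : Γ → M ⧸ X → M ⧸ X),
      (∀ γ x, actQ γ (QuotientAddGroup.mk x) = QuotientAddGroup.mk (act γ x)) →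
      Pr M act → Pr (M ⧸ X) actQ) : ClosedPred Pr where
  of_subsingleton := h0
  prod := hprod
  of_injective := by
    intro M N _ _ actM actN f hf hfact hN
    have hstab : ∀ γ, ∀ y ∈ f.range, actN γ y ∈ f.range := by
      rintro γ _ ⟨x, rfl⟩
      exact ⟨actM γ x, hfact γ x⟩
    have h1 := hsub N actN f.range hstab hN
    let ψ : M ≃+ f.range := AddMonoidHom.ofInjective hf
    refine hiso _ _ _ actM ψ.symm ?_ h1
    intro γ y
    apply ψ.injective
    rw [AddEquiv.apply_symm_apply]
    apply Subtype.ext
    show actN γ y.1 = f (actM γ (ψ.symm y))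
    rw [hfact]
    congr 1
    exact (congrArg Subtype.val (ψ.apply_symm_apply y)).symm
  of_surjective := by
    intro M N _ _ actM actN f hf hfact hM
    -- the action induced on `M ⧸ ker f`
    let e : M ⧸ f.ker ≃+ N := QuotientAddGroup.quotientKerEquivOfSurjective f hf
    have he : ∀ x : M, e (QuotientAddGroup.mk x) = f x := fun x => rfl
    let actQ : Γ → M ⧸ f.ker → M ⧸ f.ker := fun γ z => e.symm (actN γ (e z))
    have hQ : ∀ γ x, actQ γ (QuotientAddGroup.mk x) = QuotientAddGroup.mk (actM γ x) := by
      intro γ x
      apply e.injective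
      show e (e.symm (actN γ (e (QuotientAddGroup.mk x)))) = _
      rw [AddEquiv.apply_symm_apply, he, he, hfact]
    have h1 := hquot M actM f.ker actQ hQ hM
    refine hiso _ _ actQ actN e ?_ h1
    intro γ z
    show e (e.symm (actN γ (e z))) = _
    rw [AddEquiv.apply_symm_apply]

end ClosedPred

open Fermat.Agent.TW.FLAT.Points6 Fermat.Agent.TW.FLAT.SubQuot6 GaloisRep

local notation "Qb" => AlgebraicClosure ℚ
local notation "GQ" => (AlgebraicClosure ℚ ≃ₐ[ℚ] AlgebraicClosure ℚ)

/-- sanity check / special case: finite flat models over `ℤ_(p)` with the `G_ℚ`-action form a closed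
predicate (all four closure properties come from the landed TW/FLAT toolkit); with this instance the
generic chain of `GenChain5` specialises to the S32 chain. -/
theorem closedPred_hasFlatModel (p : ℕ) [Fact p.Prime] :
    ClosedPred (Γ := GQ) (fun M _ act => HasFlatModel (ratLocalizedAt p) Qb GQ M act) where
  of_subsingleton := fun _ _ _ _ =>
    Fermat.Agent.FF.LEVEL.Trivial0.hasFlatModel_of_subsingleton _ _ _ _ _
  prod := fun _ _ _ _ _ _ hM hN => HasFlatModel.prod hM hN
  of_injective := fun M _ _ _ actM _ f hf hfact hN =>
    hasFlatModel_subquotient_at p hN f hf (act' := actM) hfact (AddMonoidHom.id M)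
      Function.surjective_id (fun _ _ => rfl)
  of_surjective := fun M _ _ _ actM _ f hf hfact hM =>
    hasFlatModel_subquotient_at p hM (AddMonoidHom.id M) Function.injective_id (act' := actM)
      (fun _ _ => rfl) f hf hfact

end Fermat.Agent.ORD.CHAIN.ClosedPred5
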