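/-
Programme ORD, chapter CHAIN (helper5), file GenChain5: **the S32 chain for an arbitrary closed
predicate** (predicate-generic copy of `FF/S32/Chain5`; nothing here knows about Galois groups).

`Γ` an arbitrary index type, `Pr` a `ClosedPred5.ClosedPred`.  `T` a Noetherian local `ℤ_[p]`-algebra
with `p ∈ 𝔪`; `Mod` a finitely generated `T`-module with a family `σ : Γ → End_T Mod` which is an
equivariant quotient of `T ⊗ M₀`, where `M₀` is a `ℤ_[p]`-module with a family `ρM : Γ → End M₀` whose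
levels `M₀ / p^k` embed equivariantly into members of `Pr` (`LevelsPr`); `V` a `T`-module with a family
`ρV : Γ → End_T V` and an injective `J : V → End_T Mod` with `J (ρV γ v) = σ γ ∘ J v`.  Then for every
ideal `I` with `T ⧸ I` finite, `V ⧸ I V` (with the induced family) is a member of `Pr` (`pred_level`).

Proof as in `Chain5`: Artin–Rees for `V ⊆ Mod^r`, `Mod ⧸ I' Mod` is a quotient of `(M₀ / p^k)^s`, and
the closure lemmas `ClosedPred.pi`, `ClosedPred.of_ker_le`.  No multiplicativity of `ρM, σ, ρV` in `γ`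
is used.
-/
import Mathlib
import Fermat.Agent.ORD.CHAIN.ClosedPred5
import Fermat.Agent.FF.S32.Chain5

set_option autoImplicit false

namespace Fermat.Agent.ORD.CHAIN.GenChain5

open TensorProduct Module IsLocalRing
open Fermat.Agent.ORD.CHAIN.ClosedPred5
open Fermat.Agent.FF.S32.Chain5 (exists_pow_mem pi_mem_smul_top map_mem_smul_top)

universe u

variable {Γ : Type u} {Pr : ∀ (M : Type) [AddCommGroup M], (Γ → M → M) → Prop}
  {p : ℕ} [Fact p.Prime]
  {T : Type} [CommRing T] [IsLocalRing T] [IsNoetherianRing T] [Algebra ℤ_[p] T]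
  {M₀ : Type} [AddCommGroup M₀] [Module ℤ_[p] M₀] (ρM : Γ → End ℤ_[p] M₀)
  {Mod : Type} [AddCommGroup Mod] [Module T Mod] [Module.Finite T Mod] (σ : Γ → End T Mod)

variable (Pr) in
/-- the levels `M₀ / p^k` of `M₀` embed equivariantly into members of `Pr`. -/
def LevelsPr : Prop :=
  ∀ k : ℕ, ∃ (Y : Type) (_ : AddCommGroup Y) (actY : Γ → Y → Y),
    Pr Y actY ∧
    ∃ f : M₀ →+ Y, (∀ γ z, f (ρM γ z) = actY γ (f z)) ∧
      ∀ z, f z = 0 → ∃ y, z = ((p : ℤ_[p]) ^ k) • y

variable {ρM σ}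

/-- the family induced by `σ` on `Mod ⧸ I' Mod`. -/
def modLevelAct (σ : Γ → End T Mod) (I' : Ideal T) (γ : Γ) :
    (Mod ⧸ (I' • (⊤ : Submodule T Mod))) →ₗ[T] (Mod ⧸ (I' • (⊤ : Submodule T Mod))) :=
  Submodule.mapQ _ _ (σ γ) (by
    rw [← Submodule.map_le_iff_le_comap, Submodule.map_smul'']
    exact Submodule.smul_mono le_rfl le_top)

omit [Fact p.Prime] [IsLocalRing T] [IsNoetherianRing T] [Algebra ℤ_[p] T]
  [Module.Finite T Mod] in
@[simp] theorem modLevelAct_mk (σ : Γ → End T Mod) (I' : Ideal T) (γ : Γ) (x : Mod) :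
    modLevelAct σ I' γ (Submodule.Quotient.mk x) = Submodule.Quotient.mk (σ γ x) := rfl

omit [IsNoetherianRing T] [Module.Finite T Mod] in
/-- `Mod ⧸ I' Mod` is a member of `Pr` when `T ⧸ I'` is finite. -/
theorem pred_mod_level (hPr : ClosedPred Pr) (hpT : (p : T) ∈ maximalIdeal T)
    (q : (T ⊗[ℤ_[p]] M₀) →ₗ[T] Mod) (hq : Function.Surjective q)
    (hqσ : ∀ γ w, q ((ρM γ).baseChange T w) = σ γ (q w))
    (hlev : LevelsPr (p := p) Pr ρM) (I' : Ideal T) [Finite (T ⧸ I')] :
    Pr (Mod ⧸ (I' • (⊤ : Submodule T Mod))) (fun γ x => modLevelAct σ I' γ x) := by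
  classical
  obtain ⟨k, hk⟩ := exists_pow_mem hpT I'
  obtain ⟨Y, _, actY, hY, f, hfact, hfker⟩ := hlev k
  -- representatives of `T ⧸ I'`
  let s := Nat.card (T ⧸ I')
  let e : T ⧸ I' ≃ Fin s := Finite.equivFin (T ⧸ I')
  let t : Fin s → T := fun i => (Ideal.Quotient.mk_surjective (e.symm i)).choose
  have ht : ∀ a : T, ∃ i, a - t i ∈ I' := by
    intro a
    refine ⟨e (Ideal.Quotient.mk I' a), ?_⟩
    rw [← Ideal.Quotient.eq]
    have := (Ideal.Quotient.mk_surjective (e.symm (e (Ideal.Quotient.mk I' a)))).choose_spec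
    rw [this, Equiv.symm_apply_apply]
  let Z := Mod ⧸ (I' • (⊤ : Submodule T Mod))
  let mkZ : Mod →ₗ[T] Z := (I' • (⊤ : Submodule T Mod)).mkQ
  have hmkZ : ∀ x : Mod, x ∈ I' • (⊤ : Submodule T Mod) → mkZ x = 0 := fun x hx =>
    (Submodule.Quotient.mk_eq_zero _).mpr hx
  -- the map `(Fin s → M₀) → Z`
  let qX : (Fin s → M₀) →+ Z :=
    { toFun := fun z => mkZ (q (∑ i, t i ⊗ₜ[ℤ_[p]] z i))
      map_zero' := by simp
      map_add' := fun z z' => by
        simp only [Pi.add_apply, TensorProduct.tmul_add, Finset.sum_add_distrib, map_add] }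
  have hqX : ∀ z, qX z = mkZ (q (∑ i, t i ⊗ₜ[ℤ_[p]] z i)) := fun z => rfl
  let fX : (Fin s → M₀) →+ (Fin s → Y) :=
    { toFun := fun z i => f (z i)
      map_zero' := by funext i; simp
      map_add' := fun z z' => by funext i; simp }
  refine hPr.of_ker_le (hPr.pi hY s)
    (actX := fun γ z i => ρM γ (z i)) fX (fun γ z => by funext i; exact hfact γ (z i))
    qX ?_ ?_ ?_
  · -- surjectivity
    intro z
    obtain ⟨x, rfl⟩ := Submodule.Quotient.mk_surjective _ z
    obtain ⟨w, rfl⟩ := hq x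
    show (Submodule.Quotient.mk (q w) : Z) ∈ qX.range
    induction w using TensorProduct.induction_on with
    | zero =>
      rw [map_zero, Submodule.Quotient.mk_zero]
      exact qX.range.zero_mem
    | tmul a y =>
      obtain ⟨i, hi⟩ := ht a
      refine ⟨Pi.single i y, ?_⟩
      rw [hqX]
      have e1 : ∑ j, t j ⊗ₜ[ℤ_[p]] (Pi.single i y : Fin s → M₀) j = t i ⊗ₜ[ℤ_[p]] y := by
        rw [Finset.sum_eq_single i]
        · rw [Pi.single_eq_same]
        · intro j _ hj
          rw [Pi.single_eq_of_ne hj, TensorProduct.tmul_zero]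
        · intro h; exact absurd (Finset.mem_univ i) h
      rw [e1]
      symm
      show mkZ (q (a ⊗ₜ[ℤ_[p]] y)) = mkZ (q (t i ⊗ₜ[ℤ_[p]] y))
      rw [← sub_eq_zero, ← map_sub, ← map_sub, ← TensorProduct.sub_tmul]
      apply hmkZ
      have : (a - t i) ⊗ₜ[ℤ_[p]] y = (a - t i) • ((1 : T) ⊗ₜ[ℤ_[p]] y) := by
        rw [TensorProduct.smul_tmul', smul_eq_mul, mul_one]
      rw [this, map_smul]
      exact Submodule.smul_mem_smul hi Submodule.mem_top
    | add w w' hw hw' =>
      rw [map_add, Submodule.Quotient.mk_add]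
      exact qX.range.add_mem hw hw'
  · -- equivariance
    intro γ z
    rw [hqX, hqX]
    have e1 : ∑ i, t i ⊗ₜ[ℤ_[p]] (ρM γ (z i)) =
        (ρM γ).baseChange T (∑ i, t i ⊗ₜ[ℤ_[p]] z i) := by
      rw [map_sum]
      refine Finset.sum_congr rfl fun i _ => ?_
      rw [LinearMap.baseChange_tmul]
    rw [e1, hqσ]
    rfl
  · -- kernel
    intro z hz
    rw [hqX]
    apply hmkZ
    have hz' : ∀ i, f (z i) = 0 := fun i => congrFun hz i
    choose y hy using fun i => hfker (z i) (hz' i)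
    have e1 : ∑ i, t i ⊗ₜ[ℤ_[p]] z i = ((p : T) ^ k) • ∑ i, t i ⊗ₜ[ℤ_[p]] y i := by
      rw [Finset.smul_sum]
      refine Finset.sum_congr rfl fun i _ => ?_
      rw [hy i, TensorProduct.tmul_smul, ← algebraMap_smul T ((p : ℤ_[p]) ^ k), map_pow,
        map_natCast]
    rw [e1, map_smul]
    exact Submodule.smul_mem_smul hk Submodule.mem_top

/-- **finite levels of `V` are members of `Pr`.** -/
theorem pred_level (hPr : ClosedPred Pr) (hpT : (p : T) ∈ maximalIdeal T)
    {V : Type} [AddCommGroup V] [Module T V] (ρV : Γ → End T V)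
    (q : (T ⊗[ℤ_[p]] M₀) →ₗ[T] Mod) (hq : Function.Surjective q)
    (hqσ : ∀ γ w, q ((ρM γ).baseChange T w) = σ γ (q w))
    (hlev : LevelsPr (p := p) Pr ρM)
    (J : V →ₗ[T] End T Mod) (hJ : Function.Injective J) (hJσ : ∀ γ v, J (ρV γ v) = σ γ * J v)
    (I : Ideal T) [Finite (T ⧸ I)]
    (actZ : Γ → (V ⧸ (I • (⊤ : Submodule T V))) → (V ⧸ (I • (⊤ : Submodule T V))))
    (hZ : ∀ γ v, actZ γ (Submodule.Quotient.mk v) = Submodule.Quotient.mk (ρV γ v)) :
    Pr (V ⧸ (I • (⊤ : Submodule T V))) actZ := by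
  classical
  obtain ⟨r, m, hm⟩ := Module.Finite.exists_fin (R := T) (M := Mod)
  -- the embedding `V → Mod ^ r`
  let emb : V →ₗ[T] (Fin r → Mod) := LinearMap.pi fun i => (LinearMap.applyₗ (m i)).comp J
  have hemb : ∀ v i, emb v i = J v (m i) := fun v i => rfl
  have hemb_inj : Function.Injective emb := by
    rw [injective_iff_map_eq_zero]
    intro v hv
    apply hJ
    rw [map_zero]
    refine LinearMap.ext_on_range hm fun i => ?_
    rw [LinearMap.zero_apply, ← hemb, hv]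
    rfl
  -- Artin–Rees
  obtain ⟨k₀, hk₀⟩ := Ideal.exists_pow_inf_eq_pow_smul I (LinearMap.range emb)
  set I' : Ideal T := I ^ (k₀ + 1) with hI'
  have hAR : ∀ v : V, emb v ∈ I' • (⊤ : Submodule T (Fin r → Mod)) →
      v ∈ I • (⊤ : Submodule T V) := by
    intro v hv
    have h1 : emb v ∈ I' • (⊤ : Submodule T (Fin r → Mod)) ⊓ LinearMap.range emb :=
      ⟨hv, ⟨v, rfl⟩⟩
    rw [hI', hk₀ (k₀ + 1) (Nat.le_succ k₀), Nat.add_sub_cancel_left, pow_one] at h1
    have h2 : I • (I ^ k₀ • (⊤ : Submodule T (Fin r → Mod)) ⊓ LinearMap.range emb) ≤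
        (I • (⊤ : Submodule T V)).map emb := by
      rw [Submodule.map_smul'', Submodule.map_top]
      exact Submodule.smul_mono le_rfl inf_le_right
    obtain ⟨v', hv', hvv'⟩ := h2 h1
    rwa [← hemb_inj hvv']
  have : Finite (T ⧸ I') := Ideal.finite_quotient_pow (IsNoetherian.noetherian I) (k₀ + 1)
  -- the target
  have hmem2 := pred_mod_level hPr hpT q hq hqσ hlev I'
  have hmem1 := hPr.pi hmem2 r
  let mkZ : Mod →ₗ[T] Mod ⧸ (I' • (⊤ : Submodule T Mod)) := (I' • (⊤ : Submodule T Mod)).mkQ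
  let f₁ : V →+ (Fin r → Mod ⧸ (I' • (⊤ : Submodule T Mod))) :=
    { toFun := fun v i => mkZ (emb v i)
      map_zero' := by funext i; simp
      map_add' := fun v w => by funext i; simp }
  refine hPr.of_ker_le hmem1 (actX := fun γ v => ρV γ v) f₁ ?_
    ((I • (⊤ : Submodule T V)).mkQ : V →+ _) (Submodule.mkQ_surjective _)
    (fun γ v => (hZ γ v).symm) ?_
  · intro γ v
    funext i
    show mkZ (emb (ρV γ v) i) = modLevelAct σ I' γ (mkZ (emb v i))
    rw [hemb, hJσ, Module.End.mul_apply, ← hemb]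
    rfl
  · intro v hv
    have h1 : ∀ i, emb v i ∈ I' • (⊤ : Submodule T Mod) := fun i =>
      (Submodule.Quotient.mk_eq_zero _).mp (congrFun hv i)
    exact (Submodule.Quotient.mk_eq_zero _).mpr (hAR v (pi_mem_smul_top I' _ h1))

end Fermat.Agent.ORD.CHAIN.GenChain5
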