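/-
Programme ORD, chapter CHAIN (helper5), file GenCore5: **finite levels of the Hecke–Galois
representation are members of every closed predicate that holds for the torsion of `J₀(N)`**.

`pred_level_of_inputs` : let `H` be a Hecke–Galois datum of level `N` away from `S` (`p` odd, `p ∈ S`,
primes of `N` in `S`; NO hypothesis `p ∤ N`), `Γ` any type with a map `res : Γ → G_ℚ` (for programme
ORD: the inclusion of the decomposition group `D_P`), and `Pr` a `ClosedPred` on additive groups with a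
`Γ`-indexed family of self-maps.  If `J₀(N)[p]` is finite (K1), the Tate comparison (K2) holds and
`Pr (J₀(N)[p^k]) (torsAct ∘ res)` for every `k`, then `Pr (V ⧸ I V) (levelAction I ∘ res)` for every
ideal `I` of `T` with `T ⧸ I` finite.

This is `FF/S32/S32Core5.isFlatAt_of_inputs` with `HasFlatModel` replaced by `Pr` (same embedding
`Abs5.exists_embedding_hmod`, equivariant for all of `G_ℚ`, then `GenChain5.pred_level` for the family
restricted along `res`).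
-/
import Mathlib
import Fermat.Agent.FF.S32.S32Core5
import Fermat.Agent.ORD.CHAIN.GenChain5

set_option autoImplicit false
set_option linter.unusedSectionVars false
set_option linter.overlappingInstances false
set_option synthInstance.maxHeartbeats 400000

open Polynomial AlgebraicCurve ModularCurve CuspForm

noncomputable section

namespace Fermat.Agent.ORD.CHAIN.GenCore5

open Fermat.Agent.ES.ALG.RelDense9
  Fermat.Agent.ES.J.S30Glue8 Fermat.Agent.ES.J.TateJZero13 Fermat.Agent.ES.J.TateModule13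
  Fermat.Agent.ES.HEQ.FaithInst26 Fermat.Agent.ES.HEQ.FaithFinal26
  Fermat.Agent.ES.J.PadicAlg8 Fermat.Agent.FF.LEVEL.Transfer0
  Fermat.Agent.FF.S32.HeckeMod5 Fermat.Agent.FF.S32
  Fermat.Agent.ORD.CHAIN.ClosedPred5 Fermat.Agent.ORD.CHAIN.GenChain5
  GaloisRep

local notation "Qb" => AlgebraicClosure ℚ
local notation "GQ" => (AlgebraicClosure ℚ ≃ₐ[ℚ] AlgebraicClosure ℚ)

universe u

variable {p : ℕ} [hp : Fact p.Prime] {N : ℕ} [NeZero N] {S : Finset ℕ}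
  {𝒪 : Type} [CommRing 𝒪] [IsDomain 𝒪] [IsDiscreteValuationRing 𝒪]
  [IsAdicComplete (IsLocalRing.maximalIdeal 𝒪) 𝒪]
  {θ : CuspForm.heckeAlgebra N 2 (↑S : Set ℕ) →+* IsLocalRing.ResidueField 𝒪}
  {T : Type} [CommRing T] [IsLocalRing T] [IsNoetherianRing T]
  [IsAdicComplete (IsLocalRing.maximalIdeal T) T] [Algebra 𝒪 T] [IsLocalHom (algebraMap 𝒪 T)]
  [Module.Finite 𝒪 T] [Module.Free 𝒪 T]
  {Γ : Type u} {Pr : ∀ (M : Type) [AddCommGroup M], (Γ → M → M) → Prop}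

/-- the levels of the Tate module of `J₀(N)` embed into the torsion of `J₀(N)`, equivariantly for the
family restricted along `res`. -/
theorem levelsPr_rhoT (res : Γ → GQ)
    (htors : ∀ k : ℕ, Pr (Submodule.torsionBy ℤ (JZero N) ((p : ℤ) ^ k))
      (fun γ => torsAct N ((p : ℤ) ^ k) (res γ))) :
    LevelsPr (p := p) Pr (fun γ => rhoT p N (res γ)) := by
  intro k
  refine ⟨Submodule.torsionBy ℤ (JZero N) ((p : ℤ) ^ k), inferInstance,
    fun γ => torsAct N ((p : ℤ) ^ k) (res γ), htors k, ?_⟩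
  have hmem : ∀ z : TJ p N, proj k z ∈ Submodule.torsionBy ℤ (JZero N) ((p : ℤ) ^ k) := by
    intro z
    rw [Submodule.mem_torsionBy_iff]
    have := pow_smul_proj k z
    rw [← natCast_zsmul] at this
    push_cast at this
    exact this
  let f : TJ p N →+ Submodule.torsionBy ℤ (JZero N) ((p : ℤ) ^ k) :=
    { toFun := fun z => ⟨proj k z, hmem z⟩
      map_zero' := Subtype.ext (map_zero (proj k))
      map_add' := fun z w => Subtype.ext (map_add (proj k) z w) }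
  refine ⟨f, ?_, ?_⟩
  · intro γ z
    apply Subtype.ext
    rfl
  · intro z hz
    have : proj k z = 0 := congrArg Subtype.val hz
    exact (proj_eq_zero_iff' k z).mp this

/-- **finite levels of `H.ρ` from (K1) + (K2) + the predicate on `J₀(N)[p^k]`.** -/
theorem pred_level_of_inputs [Finite (IsLocalRing.ResidueField 𝒪)] [CharZero 𝒪]
    (hPr : ClosedPred Pr) (res : Γ → GQ)
    (hp2 : p ≠ 2) (hp𝒪 : (p : 𝒪) ∈ IsLocalRing.maximalIdeal 𝒪) (hpS : p ∈ S)
    (hNS : ∀ q : ℕ, q.Prime → q ∣ N → q ∈ S)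
    (hfin : {y : JZero N | p • y = 0}.Finite) (hcmp : TateComparison p N)
    (htors : ∀ k : ℕ, Pr (Submodule.torsionBy ℤ (JZero N) ((p : ℤ) ^ k))
      (fun γ => torsAct N ((p : ℤ) ^ k) (res γ)))
    (H : CuspForm.HeckeGaloisRepDatum N (↑S : Set ℕ) 𝒪 θ T)
    (I : Ideal T) [Finite (T ⧸ I)] :
    Pr (H.ρ.V ⧸ (I • (⊤ : Submodule T H.ρ.V))) (fun γ x => H.ρ.levelAction I (res γ) x) := by
  classical
  obtain ⟨ι₀, hbc, hheck⟩ := hcmp
  have hS : ∀ q : ℕ, q.Prime → q ∣ N → q ∈ (↑S : Set ℕ) := fun q hq hqN => by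
    exact_mod_cast hNS q hq hqN
  have hne_p : ∀ ℓ : ℕ, ℓ ∉ (↑S : Set ℕ) → ℓ ≠ p := fun ℓ hℓS h => hℓS (by exact_mod_cast h ▸ hpS)
  have hpT : (p : T) ∈ IsLocalRing.maximalIdeal T :=
    Fermat.Agent.ES.ALG31.S31Core12.natCast_mem_maximalIdeal hp𝒪
  let _ : Algebra ℤ_[p] T := (padicToLocal p hpT).toAlgebra
  -- `T` is reduced
  have : IsReduced (heckeAlgebra N 2 (↑S : Set ℕ)) :=
    Fermat.Agent.ES.PET.ReducedFinal17.isReduced_heckeAlgebra N (↑S : Set ℕ) hS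
  have : Module.Finite ℤ (heckeAlgebra N 2 (↑S : Set ℕ)) := Fermat.Agent.S22.result N 2 _
  have : IsReduced T :=
    Reduced5.isReduced_of_adjoin (𝒪 := 𝒪) (fun r => IsIntegral.of_finite ℤ r) H.π H.adjoin_range_π
  obtain ⟨hfinT, hfreeT⟩ := finite_free (p := p) (N := N) hfin
  -- the Hecke data
  let ι : Type := {ℓ : ℕ // ℓ.Prime ∧ ¬ ℓ ∣ N ∧ ℓ ∉ (↑S : Set ℕ)}
  let tM : ι → Module.End ℤ_[p] (TJ p N) := fun i => tT p N ⟨i.1, i.2.1⟩
  let gen : ι → ↥(heckeAlgebra N 2 (↑S : Set ℕ)) := fun i =>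
    heckeAlgebra.T i.2.1 i.2.2.1 i.2.2.2
  have hcomm : ∀ g i, Commute (rhoT p N g) (tM i) := fun g i => commute_rhoT_tT g _
  let hL : ↥(heckeAlgebra N 2 (↑S : Set ℕ)) →+* Module.End ℤ ↥(Lam N) :=
    (heckeLam (N := N) (↑S : Set ℕ) hS).toRingHom
  have hLinj : Function.Injective hL := heckeLam_injective (↑S : Set ℕ) hS
  have hheck' : ∀ i x, tM i (ι₀ x) = ι₀ (hL (gen i) x) := by
    intro i x
    rw [hheck i.1 i.2.1 i.2.2.1 x]
    congr 1
    exact (LinearMap.congr_fun (heckeLam_T' (↑S : Set ℕ) hS i.1 i.2.1 i.2.2.1 i.2.2.2) x).symm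
  -- Frobenius data
  let Φ : GQ → ι → ℕ → Prop := fun φ i n =>
    n = i.1 ∧ ∃ A : ValuationSubring Qb, A.LiesOverPrime i.1 ∧ A.IsFrobeniusAt φ i.1
  have hΦM : ∀ φ i n, Φ φ i n → rhoT p N φ * rhoT p N φ - tM i * rhoT p N φ
      + (n : ℤ_[p]) • (1 : Module.End ℤ_[p] (TJ p N)) = 0 := by
    rintro φ i n ⟨rfl, A, hA, hφ⟩
    exact rhoT_frobenius (p := p) (N := N) i.2.1 i.2.2.1 (hne_p i.1 i.2.2.2) hA hφ
  have hΦV : ∀ φ i n, Φ φ i n →
      LinearMap.trace T H.ρ.V (H.ρ.ρ φ) = H.π (gen i) ∧ LinearMap.det (H.ρ.ρ φ) = (n : T) := by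
    rintro φ i n ⟨rfl, A, hA, hφ⟩
    exact Fermat.Agent.ES.ALG31.Lucas15.trace_det_of_charpoly H.ρ.finrank_eq _
      (H.charpoly_frob i.1 i.2.1 i.2.2.1 i.2.2.2 A hA φ hφ)
  have hdense : ∀ (m : ℕ) (g : GQ), ∃ φ i n, ∃ j : ℕ, Φ φ i n ∧
      EndCongr (IsLocalRing.maximalIdeal T ^ m) (H.ρ.ρ (g⁻¹ * φ ^ j)) 1 ∧
      ∀ x, ∃ y, rhoT p N (g⁻¹ * φ ^ j) x - x = ((p : ℤ_[p]) ^ m) • y := by
    intro m g
    obtain ⟨L₁, hL₁, h1⟩ := H.ρ.isAdicContinuous m
    obtain ⟨L₂, hL₂, h2⟩ := rhoT_continuous (p := p) (N := N) hfin m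
    have := hL₁
    have := hL₂
    obtain ⟨ℓ, A, φ, j, hℓ, hℓS, hA, hφ, hj⟩ :=
      Fermat.Agent.ES.GAL.ChebQbar23.exists_frobenius_inv_mul_pow_fixes (L₁ ⊔ L₂) g S
    have hℓS' : ℓ ∉ (↑S : Set ℕ) := by simpa using hℓS
    have hℓN : ¬ ℓ ∣ N := fun hdvd => hℓS (hNS ℓ hℓ hdvd)
    refine ⟨φ, ⟨ℓ, hℓ, hℓN, hℓS'⟩, ℓ, j, ⟨rfl, A, hA, hφ⟩, ?_, ?_⟩
    · intro v
      rw [Module.End.one_apply]
      exact h1 _ (fun x hx => hj x (le_sup_left (a := L₁) (b := L₂) hx)) v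
    · exact h2 _ (fun x hx => hj x (le_sup_right (a := L₁) (b := L₂) hx))
  have hspan := SpanTop5.span_range_eq_top H.ρ H.residual_absIrr
  obtain ⟨J, hJ, hJσ⟩ := Abs5.exists_embedding_hmod hp2 hpT hcomm hL hLinj ι₀ hbc gen hheck' H.π
    H.ρ.finrank_eq H.ρ.ρ hspan Φ hΦM hΦV hdense
  -- the generic chain, for the families restricted along `res`
  exact pred_level hPr hpT (ρM := fun γ => rhoT p N (res γ))
    (σ := fun γ => sigma (tM := tM) (fun i => H.π (gen i)) hcomm (res γ))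
    (fun γ => H.ρ.ρ (res γ)) (mkW (tM := tM) (fun i => H.π (gen i)))
    (mkW_surjective _) (fun γ w => (sigma_mkW _ hcomm (res γ) w).symm) (levelsPr_rhoT res htors)
    J hJ (fun γ v => hJσ (res γ) v) I (fun γ x => H.ρ.levelAction I (res γ) x) (fun γ v => rfl)

end Fermat.Agent.ORD.CHAIN.GenCore5
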