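/-
Programme ORD, chapter CHAIN (helper5), file GenFinal5: **the deliverable of O2 CHAIN**, with (K1) and
(K2) discharged as in `S31.lean` / `FF/S32/S32Final5`.

`pred_level_of_tors` : hypotheses of the frozen statement S33 minus `hres` (and with `p ∣ N` only used
to get `p ∈ S`; `p ∤ N`, `p ∥ N` play no role here); `Γ` any type, `res : Γ → G_ℚ` any map (e.g. the
inclusion of a decomposition group `D_P`), `Pr` a `ClosedPred5.ClosedPred`.  Then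

  `(∀ k, Pr (J₀(N)[p^k]) (torsAct N (p^k) ∘ res)) → ∀ I, Finite (T ⧸ I) → Pr (V ⧸ I V) (levelAction I ∘ res)`.

`pred_level_of_tors'` : the same with `p ∈ S` as a hypothesis instead of `p ∣ N`.
-/
import Fermat.Agent.ORD.CHAIN.GenCore5
import Fermat.Agent.ES.J.S30Final8
import Fermat.Agent.ES.J.KummerSystemJ8

set_option autoImplicit false

universe u

variable {p : ℕ} {N : ℕ} [NeZero N] {S : Finset ℕ}
  {𝒪 : Type} [CommRing 𝒪] [IsDomain 𝒪] [IsDiscreteValuationRing 𝒪]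
  [IsAdicComplete (IsLocalRing.maximalIdeal 𝒪) 𝒪]
  {θ : CuspForm.heckeAlgebra N 2 (↑S : Set ℕ) →+* IsLocalRing.ResidueField 𝒪}
  {T : Type} [CommRing T] [IsLocalRing T] [IsNoetherianRing T]
  [IsAdicComplete (IsLocalRing.maximalIdeal T) T] [Algebra 𝒪 T] [IsLocalHom (algebraMap 𝒪 T)]
  [Module.Finite 𝒪 T] [Module.Free 𝒪 T]
  {Γ : Type u} {Pr : ∀ (M : Type) [AddCommGroup M], (Γ → M → M) → Prop}
open CuspForm CuspForm.HeckeGaloisRepDatum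

namespace Fermat.Agent.ORD.CHAIN.GenFinal5

open Fermat.Agent.ORD.CHAIN.ClosedPred5 Fermat.Agent.FF.LEVEL.Transfer0

local notation "GQ" => (AlgebraicClosure ℚ ≃ₐ[ℚ] AlgebraicClosure ℚ)

/-- **the chain, with `p ∈ S`.** -/
theorem pred_level_of_tors'
    [Finite (IsLocalRing.ResidueField 𝒪)] [CharZero 𝒪]
    (hPr : ClosedPred Pr) (res : Γ → GQ)
    (hp : p.Prime) (hp2 : p ≠ 2) (hp𝒪 : (p : 𝒪) ∈ IsLocalRing.maximalIdeal 𝒪)
    (hpS : p ∈ S) (hNS : ∀ q : ℕ, q.Prime → q ∣ N → q ∈ S)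
    (H : CuspForm.HeckeGaloisRepDatum N (↑S : Set ℕ) 𝒪 θ T)
    (htors : ∀ k : ℕ, Pr (Submodule.torsionBy ℤ (ModularCurve.JZero N) ((p : ℤ) ^ k))
      (fun γ => torsAct N ((p : ℤ) ^ k) (res γ)))
    (I : Ideal T) (hI : Finite (T ⧸ I)) :
    Pr (H.ρ.V ⧸ (I • (⊤ : Submodule T H.ρ.V))) (fun γ x => H.ρ.levelAction I (res γ) x) :=
  haveI : Fact p.Prime := ⟨hp⟩
  haveI := hI
  Fermat.Agent.ORD.CHAIN.GenCore5.pred_level_of_inputs hPr res hp2 hp𝒪 hpS hNS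
    (Fermat.Agent.ES.J.S30Final8.k1 p N)
    (Fermat.Agent.ES.J.K2Final11.k2 (Fermat.Agent.ES.J.KummerSystemJ8.kummerSystemJ p N)
      (Fermat.Agent.ES.J.KummerSystemJ8.heckeCompatJ p N))
    htors H I

/-- **the chain, in the shape of S33** (`p ∣ N`). -/
theorem pred_level_of_tors
    [Finite (IsLocalRing.ResidueField 𝒪)] [CharZero 𝒪]
    (hPr : ClosedPred Pr) (res : Γ → GQ)
    (hp : p.Prime) (hp2 : p ≠ 2) (hp𝒪 : (p : 𝒪) ∈ IsLocalRing.maximalIdeal 𝒪)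
    (hN : p ∣ N) (hNS : ∀ q : ℕ, q.Prime → q ∣ N → q ∈ S)
    (H : CuspForm.HeckeGaloisRepDatum N (↑S : Set ℕ) 𝒪 θ T)
    (htors : ∀ k : ℕ, Pr (Submodule.torsionBy ℤ (ModularCurve.JZero N) ((p : ℤ) ^ k))
      (fun γ => torsAct N ((p : ℤ) ^ k) (res γ)))
    (I : Ideal T) (hI : Finite (T ⧸ I)) :
    Pr (H.ρ.V ⧸ (I • (⊤ : Submodule T H.ρ.V))) (fun γ x => H.ρ.levelAction I (res γ) x) :=
  pred_level_of_tors' hPr res hp hp2 hp𝒪 (hNS p hp hN) hNS H htors I hI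

end Fermat.Agent.ORD.CHAIN.GenFinal5
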