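/-
Programme ORD, chapter CHAIN (helper5), file OrdPChain5: **the chain for helper7's robust property
`OrdP`** (`ORD/ALG/OrdP7`).

`OrdPAdd I M act` := the maps `act σ` (`σ ∈ I`) are additive, and `OrdP I act`.  It is a
`ClosedPred5.ClosedPred` (`closedPred_ordPAdd`) for every group `G` and subgroup `I ≤ G`; additivity
is carried inside the predicate because `OrdP.prod` needs it, and it transfers along equivariant
injections and surjections.

`ordP_level_of_tors` : for ANY subgroup `I ≤ G_ℚ` (e.g. the inertia group `P.inertiaSubgroupIn ℚ`),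
under the hypotheses of S33 minus `hres`:
  `(∀ k, OrdP I (torsAct N (p^k))) → ∀ I', Finite (T ⧸ I') → OrdP I (levelAction I')`.
-/
import Fermat.Agent.ORD.ALG.OrdP7
import Fermat.Agent.ORD.CHAIN.GenFinal5

set_option autoImplicit false

namespace Fermat.Agent.ORD.CHAIN.OrdPChain5

open Fermat.Agent.ORD.ALG.OrdP7 Fermat.Agent.ORD.CHAIN.ClosedPred5
  Fermat.Agent.FF.LEVEL.Transfer0

universe u

section Abstract

variable {G : Type u} [Group G]

/-- `OrdP` together with additivity of the maps `act σ`, `σ ∈ I`. -/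
def OrdPAdd (I : Subgroup G) (M : Type) [AddCommGroup M] (act : G → M → M) : Prop :=
  (∀ σ ∈ I, ∀ x y : M, act σ (x + y) = act σ x + act σ y) ∧ OrdP I act

/-- `OrdPAdd I` is a closed predicate. -/
theorem closedPred_ordPAdd (I : Subgroup G) : ClosedPred (Γ := G) (OrdPAdd I) where
  of_subsingleton := fun _ _ _ _ =>
    ⟨fun _ _ _ _ => Subsingleton.elim _ _, OrdP.of_subsingleton⟩
  prod := fun _ _ _ _ _ _ hM hN =>
    ⟨fun σ hσ x y => Prod.ext (hM.1 σ hσ x.1 y.1) (hN.1 σ hσ x.2 y.2),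
      OrdP.prod hM.2 hN.2 hM.1 hN.1⟩
  of_injective := fun _ _ _ _ actM actN f hf hfact hN => by
    refine ⟨fun σ hσ x y => hf ?_, hN.2.of_injective f hf (fun σ _ x => hfact σ x)⟩
    rw [hfact, map_add, hN.1 σ hσ, map_add, hfact, hfact]
  of_surjective := fun _ _ _ _ actM actN f hf hfact hM => by
    refine ⟨fun σ hσ x y => ?_, hM.2.of_surjective f hf (fun σ _ x => hfact σ x)⟩
    obtain ⟨a, rfl⟩ := hf x
    obtain ⟨b, rfl⟩ := hf y
    rw [← map_add, ← hfact, hM.1 σ hσ, map_add, hfact, hfact]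

end Abstract

section Concrete

local notation "GQ" => (AlgebraicClosure ℚ ≃ₐ[ℚ] AlgebraicClosure ℚ)

variable {p : ℕ} {N : ℕ} [NeZero N] {S : Finset ℕ}
  {𝒪 : Type} [CommRing 𝒪] [IsDomain 𝒪] [IsDiscreteValuationRing 𝒪]
  [IsAdicComplete (IsLocalRing.maximalIdeal 𝒪) 𝒪]
  {θ : CuspForm.heckeAlgebra N 2 (↑S : Set ℕ) →+* IsLocalRing.ResidueField 𝒪}
  {T : Type} [CommRing T] [IsLocalRing T] [IsNoetherianRing T]
  [IsAdicComplete (IsLocalRing.maximalIdeal T) T] [Algebra 𝒪 T] [IsLocalHom (algebraMap 𝒪 T)]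
  [Module.Finite 𝒪 T] [Module.Free 𝒪 T]

/-- the Galois action on the torsion of `J₀(N)` is additive. -/
theorem torsAct_add (n : ℤ) (σ : GQ) (x y : Submodule.torsionBy ℤ (ModularCurve.JZero N) n) :
    torsAct N n σ (x + y) = torsAct N n σ x + torsAct N n σ y := by
  apply Subtype.ext
  show σ • ((x : ModularCurve.JZero N) + (y : ModularCurve.JZero N)) = σ • x.1 + σ • y.1
  exact smul_add σ _ _

/-- **the chain for `OrdP`**: hypotheses of S33 minus `hres`; `I ≤ G_ℚ` any subgroup. -/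
theorem ordP_level_of_tors
    [Finite (IsLocalRing.ResidueField 𝒪)] [CharZero 𝒪]
    (I : Subgroup GQ)
    (hp : p.Prime) (hp2 : p ≠ 2) (hp𝒪 : (p : 𝒪) ∈ IsLocalRing.maximalIdeal 𝒪)
    (hN : p ∣ N) (hNS : ∀ q : ℕ, q.Prime → q ∣ N → q ∈ S)
    (H : CuspForm.HeckeGaloisRepDatum N (↑S : Set ℕ) 𝒪 θ T)
    (htors : ∀ k : ℕ, OrdP I (torsAct N ((p : ℤ) ^ k)))
    (I' : Ideal T) (hI' : Finite (T ⧸ I')) :
    OrdP I (fun σ x => H.ρ.levelAction I' σ x) :=
  (GenFinal5.pred_level_of_tors (closedPred_ordPAdd I) (fun σ => σ) hp hp2 hp𝒪 hN hNS H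
    (fun k => ⟨fun σ _ x y => torsAct_add _ σ x y, htors k⟩) I' hI').2

end Concrete

end Fermat.Agent.ORD.CHAIN.OrdPChain5
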