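/-
Programme ORD, chapter CHAIN (helper5), file OrdPConj5: **`OrdP` does not depend on the place over
`p`**.

* `OrdP.reindex` : `OrdP I act` only depends on the family of maps `{act σ | σ ∈ I}`;
* `OrdP.conj` : for a genuine action by additive maps, `OrdP I act → OrdP (g I g⁻¹) act`;
* `ordP_of_place` : for two places `P₀, P` of `ℚ̄` over the same prime `p`,
  `OrdP (P₀.inertiaSubgroupIn ℚ) act → OrdP (P.inertiaSubgroupIn ℚ) act` (`G_ℚ` acts transitively on
  the places over `p`, `TW/GRP/PlaceConj3.exists_smul_eq`, and conjugates inertia groups,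
  `PT/BR/UnramBridge13.conj_mem_inertiaSubgroupIn`);
* `ordP_torsAct_of_place` : the instance for `J₀(N)[n]`, so that the geometric programme O3–O6 may work
  at ONE fixed place (e.g. `padicPlace p`).
-/
import Fermat.Agent.ORD.ALG.OrdP7
import Fermat.Agent.TW.GRP.PlaceConj3
import Fermat.Agent.PT.BR.UnramBridge13
import Fermat.Agent.FF.LEVEL.Transfer0

set_option autoImplicit false

namespace Fermat.Agent.ORD.CHAIN.OrdPConj5

open Fermat.Agent.ORD.ALG.OrdP7

section Abstract

variable {G G' : Type*} [Group G] [Group G'] {M : Type*} [AddCommGroup M]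

/-- `OrdP I act` only depends on the family of maps `act σ`, `σ ∈ I`. -/
theorem _root_.Fermat.Agent.ORD.ALG.OrdP7.OrdP.reindex {I : Subgroup G} {I' : Subgroup G'}
    {act : G → M → M} {act' : G' → M → M} (h : OrdP I act)
    (h1 : ∀ σ' ∈ I', ∃ σ ∈ I, ∀ x, act' σ' x = act σ x)
    (h2 : ∀ σ ∈ I, ∃ σ' ∈ I', ∀ x, act σ x = act' σ' x) : OrdP I' act' := by
  have haug : aug I' act' ≤ aug I act := aug_le (fun σ' hσ' x => by
    obtain ⟨σ, hσ, e⟩ := h1 σ' hσ'
    rw [e]
    exact sub_mem_aug hσ x)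
  intro Y'' Y' h12 hY' hcond
  refine h Y'' Y' h12 (hY'.trans haug) (fun σ hσ y hy => ?_)
  obtain ⟨σ', hσ', e⟩ := h2 σ hσ
  rw [e]
  exact hcond σ' hσ' y hy

/-- for a genuine action by additive maps, `OrdP` passes to conjugate subgroups. -/
theorem _root_.Fermat.Agent.ORD.ALG.OrdP7.OrdP.conj {I : Subgroup G} {act : G → M → M}
    (hmul : ∀ σ τ x, act (σ * τ) x = act σ (act τ x)) (hone : ∀ x, act 1 x = x)
    (hadd : ∀ σ x y, act σ (x + y) = act σ x + act σ y)
    (h : OrdP I act) (g : G) {I' : Subgroup G}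
    (h1 : ∀ σ' ∈ I', g⁻¹ * σ' * g ∈ I) (h2 : ∀ σ ∈ I, g * σ * g⁻¹ ∈ I') : OrdP I' act := by
  -- the automorphism `act g` of `M`
  have hzero : act g 0 = 0 := by
    have h0 := hadd g 0 0
    rw [add_zero] at h0
    exact left_eq_add.mp h0
  let e : M ≃+ M :=
    { toFun := act g
      invFun := act g⁻¹
      left_inv := fun x => by rw [← hmul, inv_mul_cancel, hone]
      right_inv := fun x => by rw [← hmul, mul_inv_cancel, hone]
      map_add' := hadd g }
  -- the conjugated family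
  have h3 : OrdP I (fun σ => act (g * σ * g⁻¹)) := by
    refine h.of_addEquiv e (fun σ _ y => ?_)
    show act g (act σ y) = act (g * σ * g⁻¹) (act g y)
    rw [← hmul, ← hmul, inv_mul_cancel_right]
  refine h3.reindex (fun σ' hσ' => ⟨g⁻¹ * σ' * g, h1 σ' hσ', fun x => ?_⟩)
    (fun σ hσ => ⟨g * σ * g⁻¹, h2 σ hσ, fun x => rfl⟩)
  have : g * (g⁻¹ * σ' * g) * g⁻¹ = σ' := by group
  rw [this]

end Abstract

section Places

local notation "Qb" => AlgebraicClosure ℚ
local notation "GQ" => (AlgebraicClosure ℚ ≃ₐ[ℚ] AlgebraicClosure ℚ)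

open scoped Pointwise

/-- **`OrdP` at one place over `p` gives `OrdP` at every place over `p`.** -/
theorem ordP_of_place {p : ℕ} (hp : p.Prime) {P₀ P : ValuationSubring Qb}
    (hP₀ : P₀.LiesOverPrime p) (hP : P.LiesOverPrime p)
    {M : Type*} [AddCommGroup M] {act : GQ → M → M}
    (hmul : ∀ σ τ x, act (σ * τ) x = act σ (act τ x)) (hone : ∀ x, act 1 x = x)
    (hadd : ∀ σ x y, act σ (x + y) = act σ x + act σ y)
    (h : OrdP (P₀.inertiaSubgroupIn ℚ) act) : OrdP (P.inertiaSubgroupIn ℚ) act := by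
  obtain ⟨g, rfl⟩ := Fermat.Agent.TW.GRP.PlaceConj3.exists_smul_eq hp hP₀ hP
  refine h.conj hmul hone hadd g (fun σ' hσ' => ?_) (fun σ hσ => ?_)
  · have := Fermat.Agent.PT.BR.UnramBridge13.conj_mem_inertiaSubgroupIn hp hP g⁻¹ hσ'
    rwa [inv_smul_smul, inv_inv] at this
  · exact Fermat.Agent.PT.BR.UnramBridge13.conj_mem_inertiaSubgroupIn hp hP₀ g hσ

open Fermat.Agent.FF.LEVEL.Transfer0 in
/-- the instance for the torsion of `J₀(N)`. -/
theorem ordP_torsAct_of_place {p : ℕ} (hp : p.Prime) {P₀ P : ValuationSubring Qb}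
    (hP₀ : P₀.LiesOverPrime p) (hP : P.LiesOverPrime p) (N : ℕ) [NeZero N] (n : ℤ)
    (h : OrdP (P₀.inertiaSubgroupIn ℚ) (torsAct N n)) :
    OrdP (P.inertiaSubgroupIn ℚ) (torsAct N n) := by
  refine ordP_of_place hp hP₀ hP (fun σ τ x => ?_) (fun x => ?_) (fun σ x y => ?_) h
  · apply Subtype.ext
    show (σ * τ) • (x : ModularCurve.JZero N) = σ • (τ • (x : ModularCurve.JZero N))
    exact mul_smul σ τ _
  · apply Subtype.ext
    show (1 : GQ) • (x : ModularCurve.JZero N) = x
    exact one_smul _ _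
  · apply Subtype.ext
    show σ • ((x : ModularCurve.JZero N) + (y : ModularCurve.JZero N)) = σ • x.1 + σ • y.1
    exact smul_add σ _ _

end Places

end Fermat.Agent.ORD.CHAIN.OrdPConj5
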